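import Mathlib
import Fermat.Agent.LT.T7.B981.PairBaseSpec
import Fermat.Agent.LT.T1.Closed
import Fermat.Agent.LT.T2.H429.Loc
import Fermat.Agent.LT.T7.H340.IwKit
import Fermat.Agent.LT.T7.H44.ChangeAna
import Fermat.Agent.LT.T3.H237.ConstTerm
import Fermat.Agent.LT.T5.H277.Ray
import Fermat.Agent.LT.T7.H116.IwSupp

/-!
# Row LT, tower T7, third cut of `B981.BaseAC981` (helper981, `T7/B981/PairBaseSpec.lean`):
# LEAF A.0.C `DnStabC981` (helper919, OFF-MAIN, never land)

Complete proof, nothing assumed.  `dnStabC919 (K K') : B981.DnStabC981 K K'`.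

POINTWISE in `y` (no splitting of the Haar measure): on the support of `f` the component `y_u`
lies in the Iwahori subgroup at `u` (`H116.iwSuppC116`); `y = y° y_u` with `y°` trivial at `u`.
* `rconv_cuspFn919`: `R(f)` preserves the cusp functions (left invariance of the Haar measure,
  Fubini for the constant term, the ray generator is central);
* `rconv_archInv919`: the positive scalars at infinity are central;
* `rconv_iwInv919`, `rconv_iwOp919`, `rconv_shiftOp919`: the Iwahori invariance and the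
  commutation with `iwOp`, `shiftOp`.
-/

set_option autoImplicit false

open AutomorphicForm IsDedekindDomain NumberField MeasureTheory
open scoped ComplexConjugate

noncomputable section

namespace Fermat.Agent.LT.T7.DS919

open Fermat.Agent.LT.H556 Fermat.Agent.LT.H556.A0 Fermat.Agent.LT.T7
open Fermat.Agent.LT.T7.H305 Fermat.Agent.LT.T7.H893 Fermat.Agent.LT.H129
open Fermat.Agent.LT.T7.B981

attribute [local instance] Fermat.Agent.LT.T5.instMeasurableSpaceG

section Central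

variable {K : Type} [Field K] [NumberField K]

/-- A positive scalar at an infinite place is central. -/
theorem central_archPos919 {w : InfinitePlace K} {z : G K} (hz : IsArchPosScalar w z)
    (g : G K) : g * z = z * g := by
  obtain ⟨hloc, r, -, hr⟩ := hz
  rw [T2.H429.isLocalAtInf_iff429] at hloc
  refine T2.H429.central_of_scalar_comp429 (fun w' => ?_) (fun v => ?_) g
  · by_cases hw : w' = w
    · subst hw
      refine ⟨_, T2.H429.scalar_of_map_scalar429 _ (r : ℂ) ?_⟩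
      rw [← T2.H429.infComp_eq429]
      exact hr
    · exact ⟨1, by rw [hloc.1 w' hw]; exact T2.H429.one_eq_diagonal429⟩
  · exact ⟨1, by rw [hloc.2 v]; exact T2.H429.one_eq_diagonal429⟩

/-- A scalar uniformiser at a finite place is central. -/
theorem central_scalarUnif919 {u : HeightOneSpectrum (𝓞 K)} {z : G K}
    (hz : IsScalarUniformizerAt u z) (g : G K) : g * z = z * g := by
  obtain ⟨hloc, c, -, hc⟩ := hz
  rw [isLocalAtFin_iff129] at hloc
  refine T2.H429.central_of_scalar_comp429 (fun w' => ?_) (fun v => ?_) g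
  · exact ⟨1, by rw [hloc.1 w']; exact T2.H429.one_eq_diagonal429⟩
  · by_cases hv : v = u
    · subst hv
      exact ⟨c, by rw [coe_finCompHom129]; exact hc⟩
    · exact ⟨1, by rw [hloc.2 v hv]; exact T2.H429.one_eq_diagonal429⟩

theorem central_zpow919 {z : G K} (hz : ∀ g : G K, g * z = z * g) (k : ℤ) (g : G K) :
    g * z ^ k = z ^ k * g :=
  ((show Commute g z from hz g).zpow_right k).eq

end Central

section Pointwise

variable {K : Type} [Field K] [NumberField K]

/-- **The decomposition `y = y° y_u`** for `y` Iwahori at `u`: `y_u` is supported at `u` and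
Iwahori, `y°` is trivial at `u`. -/
theorem exists_split919 (u : HeightOneSpectrum (𝓞 K)) {y : G K} (hy : T5.InIwahori u y) :
    ∃ yo yu : G K, y = yo * yu ∧ IsLocalAtFin u yu ∧ T5.InIwahori u yu ∧
      finCompHom129 u yo = 1 := by
  refine ⟨y * (locFin129 u (finCompHom129 u y))⁻¹, locFin129 u (finCompHom129 u y), ?_,
    isLocalAtFin_locFin129 _ _, ?_, ?_⟩
  · rw [inv_mul_cancel_right]
  · rw [H340.inIwahori_iff340, finCompHom129_locFin129, ← H340.inIwahori_iff340]
    exact hy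
  · rw [map_mul, map_inv, finCompHom129_locFin129, mul_inv_cancel]

/-- For `ψ` Iwahori-invariant at `u`, `h` supported at `u` and Iwahori, and `y` Iwahori at
`u`: `ψ (x h y) = ψ (x y)`. -/
theorem psi_iw_absorb919 {u : HeightOneSpectrum (𝓞 K)} {ψ : G K → ℂ}
    (hψ : IsIwInv 1 (fun _ => u) ψ) {y : G K} (hy : T5.InIwahori u y) {h : G K}
    (hh : IsLocalAtFin u h) (hhI : T5.InIwahori u h) (x : G K) :
    ψ (x * h * y) = ψ (x * y) := by
  obtain ⟨yo, yu, rfl, hyu, hyuI, hyo⟩ := exists_split919 u hy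
  have hc : h * yo = yo * h := H340.commute_of_local340 hh hyo
  have e1 : x * h * (yo * yu) = x * yo * (h * yu) := by
    rw [mul_assoc x h, ← mul_assoc h yo, hc]
    group
  have e2 : x * (yo * yu) = x * yo * yu := by group
  rw [e1, e2,
    H340.isIwInv_local340 hψ (j₀ := 0) Nat.zero_lt_one (h * yu)
      (isLocalAtFin_mul129 hh hyu) (H340.inIwahori_mul340 hhI hyuI) (x * yo),
    H340.isIwInv_local340 hψ (j₀ := 0) Nat.zero_lt_one yu hyu hyuI (x * yo)]

/-- An element as in `IsIwInv 1 (fun _ => u)` is supported at `u`. -/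
theorem isLocalAtFin_of_iwElt919 {u : HeightOneSpectrum (𝓞 K)} {h : G K}
    (h1 : ∀ w : InfinitePlace K, TrivAtInf w h)
    (h2 : ∀ v : HeightOneSpectrum (𝓞 K), (∀ j < 1, v ≠ (fun _ : ℕ => u) j) → TrivAtFin v h) :
    IsLocalAtFin u h :=
  ⟨h1, fun v hv => h2 v fun _ _ => hv⟩

/-- For `ψ` Iwahori-invariant at `u`, a coset system `H` at `u` and `y` Iwahori at `u`:
`∑_h ψ (x h y) = ∑_h ψ (x y h)`. -/
theorem psi_iwSum919 {u : HeightOneSpectrum (𝓞 K)} {ψ : G K → ℂ}
    (hψ : IsIwInv 1 (fun _ => u) ψ) {H : Finset (G K)} (hH : IsIwCosetSystem u H) {y : G K}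
    (hy : T5.InIwahori u y) (x : G K) :
    ∑ h ∈ H, ψ (x * h * y) = ∑ h ∈ H, ψ (x * y * h) := by
  obtain ⟨yo, yu, rfl, hyu, hyuI, hyo⟩ := exists_split919 u hy
  have hL : ∀ h ∈ H, ψ (x * h * (yo * yu)) = ψ (x * yo * h) := by
    intro h hh
    have hc : h * yo = yo * h := H340.commute_of_local340 (hH.2.1 h hh).1 hyo
    have e1 : x * h * (yo * yu) = x * yo * h * yu := by
      rw [mul_assoc x h, ← mul_assoc h yo, hc]
      group
    rw [e1]
    exact H340.isIwInv_local340 hψ (j₀ := 0) Nat.zero_lt_one yu hyu hyuI _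
  rw [Finset.sum_congr rfl hL]
  have hinv := H340.isIwInv_iwOp340 (l := 1) (o := fun _ => u) Nat.zero_lt_one hH hψ
  have hk := hinv yu hyu.1 (fun v hv => hyu.2 v (hv 0 Nat.zero_lt_one)) (fun _ _ => hyuI)
    (x * yo)
  have hq : ((Real.sqrt (Ideal.absNorm u.asIdeal : ℝ) : ℝ) : ℂ)⁻¹ ≠ 0 := by
    apply inv_ne_zero
    have h0 : (0 : ℝ) < Ideal.absNorm u.asIdeal := by
      have : Ideal.absNorm u.asIdeal ≠ 0 := by
        rw [Ne, Ideal.absNorm_eq_zero_iff]
        exact u.ne_bot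
      exact_mod_cast Nat.pos_of_ne_zero this
    exact_mod_cast (Real.sqrt_pos.2 h0).ne'
  have hk' : ((Real.sqrt (Ideal.absNorm u.asIdeal : ℝ) : ℝ) : ℂ)⁻¹ * ∑ h ∈ H, ψ (x * yo * yu * h)
      = ((Real.sqrt (Ideal.absNorm u.asIdeal : ℝ) : ℝ) : ℂ)⁻¹ * ∑ h ∈ H, ψ (x * yo * h) := hk
  have := mul_left_cancel₀ hq hk'
  rw [← this]
  refine Finset.sum_congr rfl fun h _ => ?_
  rw [mul_assoc x yo yu]

end Pointwise

section Analysis

variable {K : Type} [Field K] [NumberField K]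
variable {μ : Measure (G K)} {F : Set (G K)}

/-- Left invariance of the Haar measure: `(R(f) ψ)(x u) = ∫ f(u⁻¹ y) ψ(x y) dy`. -/
theorem rconv_mul919 (hF : T5.IsFrame μ F) (f ψ : G K → ℂ) (x u : G K) :
    T5.Rconv μ f ψ (x * u) = ∫ y, f (u⁻¹ * y) * ψ (x * y) ∂μ := by
  have : BorelSpace (G K) := ⟨rfl⟩
  have := hF.haar
  show ∫ y, f y * ψ (x * u * y) ∂μ = _
  have h := integral_mul_left_eq_self (μ := μ) (fun y => f (u⁻¹ * y) * ψ (x * y)) u
  rw [← h]
  refine integral_congr_ae (Filter.Eventually.of_forall fun y => ?_)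
  show f y * ψ (x * u * y) = f (u⁻¹ * (u * y)) * ψ (x * (u * y))
  rw [inv_mul_cancel_left, mul_assoc]

/-- `R(f) ψ` is right invariant under the elements under which `f` is left invariant. -/
theorem rconv_left_inv919 (hF : T5.IsFrame μ F) {f ψ : G K → ℂ} {u : G K}
    (hfu : ∀ y : G K, f (u * y) = f y) (x : G K) :
    T5.Rconv μ f ψ (x * u) = T5.Rconv μ f ψ x := by
  rw [rconv_mul919 hF]
  show _ = ∫ y, f y * ψ (x * y) ∂μ
  refine integral_congr_ae (Filter.Eventually.of_forall fun y => ?_)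
  show f (u⁻¹ * y) * ψ (x * y) = f y * ψ (x * y)
  rw [← hfu (u⁻¹ * y), mul_inv_cancel_left]

/-- `R(f) ψ` is right invariant under the central elements under which `ψ` is. -/
theorem rconv_central919 {f ψ : G K → ℂ} {z : G K} (hz : ∀ g : G K, g * z = z * g)
    (hψ : ∀ g : G K, ψ (g * z) = ψ g) (x : G K) :
    T5.Rconv μ f ψ (x * z) = T5.Rconv μ f ψ x := by
  show ∫ y, f y * ψ (x * z * y) ∂μ = ∫ y, f y * ψ (x * y) ∂μ
  refine integral_congr_ae (Filter.Eventually.of_forall fun y => ?_)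
  show f y * ψ (x * z * y) = f y * ψ (x * y)
  rw [mul_assoc, ← hz y, ← mul_assoc, hψ]

/-- **`R(f)` preserves the vanishing of the constant term** (Fubini). -/
theorem isCuspidalFn_rconv919 (hF : T5.IsFrame μ F) {f ψ : G K → ℂ} (hfc : Continuous f)
    (hfs : HasCompactSupport f) (hψc : Continuous ψ) (hψb : ∃ C : ℝ, ∀ g : G K, ‖ψ g‖ ≤ C)
    (hψ : IsCuspidalFn ψ) : IsCuspidalFn (T5.Rconv μ f ψ) := by
  let _ : MeasurableSpace (Adl K) := borel (Adl K)
  have : BorelSpace (Adl K) := ⟨rfl⟩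
  have : BorelSpace (G K) := ⟨rfl⟩
  have := hF.haar
  have hT1 := T1.t1Out K
  have : LocallyCompactSpace (G K) := hT1.locComp.2.1
  have : T2Space (G K) := hT1.locComp.2.2.1
  have : SecondCountableTopology (G K) := hT1.locComp.2.2.2
  have : LocallyCompactSpace (Adl K) := hT1.locComp.1.1
  have : T2Space (Adl K) := hT1.locComp.1.2.1
  have : SecondCountableTopology (Adl K) := hT1.locComp.1.2.2
  intro μ' hμ' D hD n hn g
  have hn' : ∀ x : Adl K, n x = T3.unip K x := fun x => Units.ext (by rw [hn x]; rfl)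
  obtain ⟨B, hB⟩ := hψb
  have hDfin : μ' D < ⊤ :=
    T3.H237.measure_fundDom_lt_top237 K μ' hT1.adeleLattice.2.2 D hD
  have : IsFiniteMeasure (μ'.restrict D) := ⟨by simpa using hDfin⟩
  show ∫ x in D, (∫ y, f y * ψ (n x * g * y) ∂μ) ∂μ' = 0
  have hfi : Integrable f μ := hfc.integrable_of_hasCompactSupport hfs
  have hb : Integrable (fun z : Adl K × G K => (fun _ : Adl K => B) z.1 * (fun h => ‖f h‖) z.2)
      ((μ'.restrict D).prod μ) :=
    Integrable.mul_prod (integrable_const B) hfi.norm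
  have hcont : Continuous (Function.uncurry fun (x : Adl K) (y : G K) =>
      f y * ψ (T3.unip K x * g * y)) := by
    refine Continuous.mul (hfc.comp continuous_snd) (hψc.comp ?_)
    exact (((T3.H237.continuous_unip237 K).comp continuous_fst).mul continuous_const).mul
      continuous_snd
  have hint : Integrable (Function.uncurry fun (x : Adl K) (y : G K) =>
      f y * ψ (T3.unip K x * g * y)) ((μ'.restrict D).prod μ) := by
    refine hb.mono' hcont.aestronglyMeasurable (Filter.Eventually.of_forall ?_)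
    rintro ⟨x, y⟩
    show ‖f y * ψ (T3.unip K x * g * y)‖ ≤ B * ‖f y‖
    rw [norm_mul, mul_comm]
    exact mul_le_mul_of_nonneg_right (hB _) (norm_nonneg _)
  have e0 : (fun x : Adl K => ∫ y, f y * ψ (n x * g * y) ∂μ)
      = fun x : Adl K => ∫ y, f y * ψ (T3.unip K x * g * y) ∂μ := by
    funext x
    rw [hn' x]
  rw [e0, integral_integral_swap hint]
  have e1 : ∀ y : G K, ∫ x in D, f y * ψ (T3.unip K x * g * y) ∂μ' = 0 := by
    intro y
    have h0 := hψ μ' hμ' D hD (T3.unip K) (fun x => rfl) (g * y)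
    have e2 : (fun x : Adl K => f y * ψ (T3.unip K x * g * y))
        = fun x : Adl K => f y * ψ (T3.unip K x * (g * y)) := by
      funext x
      rw [mul_assoc]
    rw [e2, integral_const_mul, h0, mul_zero]
  simp only [e1, integral_zero]

/-- **`R(f)` preserves the cusp functions** of level `𝔫` and trivial type. -/
theorem rconv_cuspFn919 (hF : T5.IsFrame μ F) {𝔫 : Ideal (𝓞 K)} {r : G K}
    (hr : T5.IsRayGen r) {f ψ : G K → ℂ} (hf : T5.IsTestFn 𝔫 T5.trivType f)
    (hψ : T5.IsCuspFn 𝔫 T5.trivType r ψ) :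
    T5.IsCuspFn 𝔫 T5.trivType r (T5.Rconv μ f ψ) where
  cont := (H44.isNice_rconv44 hF hf.cont hf.supp ⟨hψ.cont, hψ.bdd⟩).1
  bdd := (H44.isNice_rconv44 hF hf.cont hf.supp ⟨hψ.cont, hψ.bdd⟩).2
  aut :=
    { left_inv := fun γ g => by
        show ∫ y, f y * ψ (T5.ratG γ * g * y) ∂μ = ∫ y, f y * ψ (g * y) ∂μ
        refine integral_congr_ae (Filter.Eventually.of_forall fun y => ?_)
        show f y * ψ (T5.ratG γ * g * y) = f y * ψ (g * y)
        rw [mul_assoc, hψ.aut.left_inv]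
      level_inv := fun u hu g =>
        rconv_left_inv919 hF (fun y => hf.inv.level_left u hu y) g
      arch_compact := fun w k hk g => by
        have hk' : ∀ y : G K, f (k * y) = f y := by
          intro y
          rw [hf.inv.arch_left w k hk y]
          show ((1 : ℂ))⁻¹ * f y = f y
          rw [inv_one, one_mul]
        rw [rconv_left_inv919 hF hk' g]
        show _ = (1 : ℂ) * _
        rw [one_mul]
      ray := fun g =>
        rconv_central919 (fun g' => (T5.H277.ray_comm277 hr g').symm) hψ.aut.ray g }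
  cuspidal := isCuspidalFn_rconv919 hF hf.cont hf.supp hψ.cont hψ.bdd hψ.cuspidal

end Analysis

section Stab

variable {K : Type} [Field K] [NumberField K]
variable {μ : Measure (G K)} {F : Set (G K)}

/-- On the support of a function supported at `P ∪ S_∞` the component at `u ∣ 𝔫`, `u ∉ P`, is
Iwahori. -/
theorem inIwahori_of_supp919 {𝔫 : Ideal (𝓞 K)} {P : Finset (HeightOneSpectrum (𝓞 K))}
    {u : HeightOneSpectrum (𝓞 K)} (hu : u.asIdeal ∣ 𝔫) (huP : u ∉ P) {f : G K → ℂ}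
    (hfs : HasCompactSupport f) (hsupp : T3.M.IsSuppAtM K 𝔫 P f) {y : G K} (hy : f y ≠ 0) :
    T5.InIwahori u y := by
  obtain ⟨C, -, hC⟩ :=
    H116.iwSuppC116 K 𝔫 P 1 (fun _ => u) (fun _ _ => hu) (fun _ _ => huP) f hfs hsupp
  exact (hC y hy).1 0 Nat.zero_lt_one

/-- `R(f)` preserves the Iwahori invariance at `u`. -/
theorem rconv_iwInv919 {𝔫 : Ideal (𝓞 K)} {P : Finset (HeightOneSpectrum (𝓞 K))}
    {u : HeightOneSpectrum (𝓞 K)} (hu : u.asIdeal ∣ 𝔫) (huP : u ∉ P) {f : G K → ℂ}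
    (hfs : HasCompactSupport f) (hsupp : T3.M.IsSuppAtM K 𝔫 P f) {ψ : G K → ℂ}
    (hψ : IsIwInv 1 (fun _ => u) ψ) : IsIwInv 1 (fun _ => u) (T5.Rconv μ f ψ) := by
  intro h h1 h2 h3 x
  show ∫ y, f y * ψ (x * h * y) ∂μ = ∫ y, f y * ψ (x * y) ∂μ
  refine integral_congr_ae (Filter.Eventually.of_forall fun y => ?_)
  show f y * ψ (x * h * y) = f y * ψ (x * y)
  by_cases hy : f y = 0
  · rw [hy, zero_mul, zero_mul]
  · rw [psi_iw_absorb919 hψ (inIwahori_of_supp919 hu huP hfs hsupp hy)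
      (isLocalAtFin_of_iwElt919 h1 h2) (h3 0 Nat.zero_lt_one) x]

/-- `R(f)` commutes with the Iwahori operator at `u`. -/
theorem rconv_iwOp919 (hF : T5.IsFrame μ F) {𝔫 : Ideal (𝓞 K)}
    {P : Finset (HeightOneSpectrum (𝓞 K))}
    {u : HeightOneSpectrum (𝓞 K)} (hu : u.asIdeal ∣ 𝔫) (huP : u ∉ P) {f : G K → ℂ}
    (hfc : Continuous f) (hfs : HasCompactSupport f) (hsupp : T3.M.IsSuppAtM K 𝔫 P f)
    {ψ : G K → ℂ} (hψc : Continuous ψ) (hψ : IsIwInv 1 (fun _ => u) ψ) {H : Finset (G K)}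
    (hH : IsIwCosetSystem u H) (x : G K) :
    T5.Rconv μ f (iwOp u H ψ) x = iwOp u H (T5.Rconv μ f ψ) x := by
  show ∫ y, f y * (((Real.sqrt (Ideal.absNorm u.asIdeal : ℝ) : ℝ) : ℂ)⁻¹
        * ∑ h ∈ H, ψ (x * y * h)) ∂μ
    = ((Real.sqrt (Ideal.absNorm u.asIdeal : ℝ) : ℝ) : ℂ)⁻¹
        * ∑ h ∈ H, ∫ y, f y * ψ (x * h * y) ∂μ
  rw [← integral_finsetSum H (fun h _ => H44.integrable_rconv44 hF hfc hfs hψc (x * h)),
    ← integral_const_mul]
  refine integral_congr_ae (Filter.Eventually.of_forall fun y => ?_)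
  show f y * (((Real.sqrt (Ideal.absNorm u.asIdeal : ℝ) : ℝ) : ℂ)⁻¹
        * ∑ h ∈ H, ψ (x * y * h))
    = ((Real.sqrt (Ideal.absNorm u.asIdeal : ℝ) : ℝ) : ℂ)⁻¹
        * ∑ h ∈ H, f y * ψ (x * h * y)
  by_cases hy : f y = 0
  · simp [hy]
  · rw [← Finset.mul_sum, psi_iwSum919 hψ hH (inIwahori_of_supp919 hu huP hfs hsupp hy) x]
    ring

/-- `R(f)` commutes with the shifts by a scalar uniformiser. -/
theorem rconv_shiftOp919 {u : HeightOneSpectrum (𝓞 K)} (f ψ : G K → ℂ) {z : G K}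
    (hz : IsScalarUniformizerAt u z) (k : ℤ) (x : G K) :
    T5.Rconv μ f (shiftOp z k ψ) x = shiftOp z k (T5.Rconv μ f ψ) x := by
  show ∫ y, f y * ψ (x * y * z ^ k) ∂μ = ∫ y, f y * ψ (x * z ^ k * y) ∂μ
  refine integral_congr_ae (Filter.Eventually.of_forall fun y => ?_)
  show f y * ψ (x * y * z ^ k) = f y * ψ (x * z ^ k * y)
  rw [mul_assoc x y, central_zpow919 (central_scalarUnif919 hz) k y, ← mul_assoc]

/-- **`R(f)` preserves the invariant cusp functions.** -/
theorem rconv_wfn919 (hF : T5.IsFrame μ F) {𝔫 : Ideal (𝓞 K)} {r : G K}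
    (hr : T5.IsRayGen r) {P : Finset (HeightOneSpectrum (𝓞 K))}
    {u : HeightOneSpectrum (𝓞 K)} (hu : u.asIdeal ∣ 𝔫) (huP : u ∉ P) {f : G K → ℂ}
    (hf : T5.IsTestFn 𝔫 T5.trivType f) (hsupp : T3.M.IsSuppAtM K 𝔫 P f) {ψ : G K → ℂ}
    (hψ : IsWFn 𝔫 r 1 (fun _ => u) ψ) : IsWFn 𝔫 r 1 (fun _ => u) (T5.Rconv μ f ψ) where
  cusp := rconv_cuspFn919 hF hr hf hψ.cusp
  arch_scalar := fun w z hz g =>
    rconv_central919 (central_archPos919 hz) (hψ.arch_scalar w z hz) g
  iw := rconv_iwInv919 hu huP hf.supp hsupp hψ.iw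

/-- A scalar multiple of a Hecke eigenfunction is a Hecke eigenfunction. -/
theorem isHeckeEigenAt_smul919 {ψ : G K → ℂ} {v : HeightOneSpectrum (𝓞 K)} {a b : ℂ}
    (h : IsHeckeEigenAt ψ v a b) (κ : ℂ) : IsHeckeEigenAt (fun g => κ * ψ g) v a b := by
  refine ⟨fun H hH g => ?_, fun z hz g => ?_⟩
  · show ∑ h ∈ H, κ * ψ (g * h) = _ * a * (κ * ψ g)
    rw [← Finset.mul_sum, h.1 H hH g]
    ring
  · show κ * ψ (g * z) = b * (κ * ψ g)
    rw [h.2 z hz g]
    ring

/-- A scalar multiple of an eigenfunction of the sphere means is an eigenfunction. -/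
theorem meanEig_smul919 {ψ : G K → ℂ} {w : InfinitePlace K} {m : ℝ → ℂ}
    (h : MeanEig ψ w m) (κ : ℂ) : MeanEig (fun g => κ * ψ g) w m := by
  intro d hd Y hY g
  have e : (∫ α in (0 : ℝ)..(2 * Real.pi), ∫ β in (0 : ℝ)..Real.pi,
        κ * ψ (g * Y α β) * ((Real.sin β : ℝ) : ℂ))
      = κ * ∫ α in (0 : ℝ)..(2 * Real.pi), ∫ β in (0 : ℝ)..Real.pi,
        ψ (g * Y α β) * ((Real.sin β : ℝ) : ℂ) := by
    simp only [mul_assoc, intervalIntegral.integral_const_mul]
  show (∫ α in (0 : ℝ)..(2 * Real.pi), ∫ β in (0 : ℝ)..Real.pi,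
        κ * ψ (g * Y α β) * ((Real.sin β : ℝ) : ℂ)) = m d * (κ * ψ g)
  rw [e, h d hd Y hY g]
  ring

end Stab

section Leaf

variable (K K' : Type) [Field K] [NumberField K] [Field K'] [NumberField K'] [Algebra K K']

/-- **LEAF A.0.C = DN-STAB**, verbatim. -/
theorem dnStabC919 : DnStabC981 K K' := by
  intro ℓ _ _ Φ B hB 𝔫 hlev P hP f hf hsupp hc
  have huP : B.u ∉ P := fun h => hP B.u h hlev.u_level
  have hF := hB.frame.frame
  have hr := hB.frame.ray
  have hw : ∀ ψ : G K → ℂ, IsWFn 𝔫 B.R.r 1 (fun _ => B.u) ψ →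
      IsWFn 𝔫 B.R.r 1 (fun _ => B.u) (T5.Rconv B.R.μ f ψ) :=
    fun ψ hψ => rconv_wfn919 hF hr hlev.u_level huP hf hsupp hψ
  refine ⟨hw, fun ψ c hψ => ?_, fun ψ hψ H z hH hz => ⟨fun x => ?_, fun k x => ?_⟩⟩
  · obtain ⟨c₀, hc₀⟩ := hc
    have hml : T3.M.IsMeanLevel K 𝔫 c.m ψ :=
      { cont := hψ.inv.cusp.cont
        level_inv := hψ.inv.cusp.aut.level_inv
        arch_scalar := hψ.inv.arch_scalar
        arch_compact := fun w k hk g => by
          rw [hψ.inv.cusp.aut.arch_compact w k hk g]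
          show (1 : ℂ) * ψ g = ψ g
          rw [one_mul]
        mean := hψ.mean }
    have hκ : T5.Rconv B.R.μ f ψ = fun g => c₀ c.a c.b c.m * ψ g :=
      funext fun g => hc₀ ψ c.m hml c.a c.b (fun v hv => hψ.hecke v (hP v hv)) g
    refine ⟨hw ψ hψ.inv, fun v hv => ?_, fun w => ?_⟩
    · rw [hκ]
      exact isHeckeEigenAt_smul919 (hψ.hecke v hv) _
    · rw [hκ]
      exact meanEig_smul919 (hψ.mean w) _
  · exact rconv_iwOp919 hF hlev.u_level huP hf.cont hf.supp hsupp hψ.cusp.cont hψ.iw hH x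
  · exact rconv_shiftOp919 f ψ hz k x

end Leaf

end Fermat.Agent.LT.T7.DS919

end
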