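import Mathlib
import Fermat.Agent.LT.T7.H87.BaseAQSpec
import Fermat.Agent.LT.T7.H919.DnStab

/-!
# Row LT, tower T7, Q-mirror: cut of `PQ484.BaseAQC484` (helper87, `T7/H87/BaseAQSpec.lean`):
# LEAVES A.0.C `DnStabQC87 F` and A.0.S `IwSuppC87 K` (helper919, OFF-MAIN, never land)

Complete proofs, nothing assumed.  Ports of `DS919.dnStabC919` (`T7/H919/DnStab.lean`): the
one-field lemmas of that file are used verbatim; NEW here: `rconv_cuspFnT919` = `R(f)` preserves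
the cusp functions of an ARBITRARY `K_∞`-type `τ` (`f(k⁻¹ y) = τ(k) f(y)`), and the stability of
the circle means under scalars.
-/

set_option autoImplicit false

open AutomorphicForm IsDedekindDomain NumberField MeasureTheory
open scoped ComplexConjugate

noncomputable section

namespace Fermat.Agent.LT.T7.DSQ919

open Fermat.Agent.LT Fermat.Agent.LT.H556 Fermat.Agent.LT.H556.A0 Fermat.Agent.LT.T7
open Fermat.Agent.LT.T7.H305 Fermat.Agent.LT.T7.H893 Fermat.Agent.LT.H129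
open Fermat.Agent.LT.T7.DS919 Fermat.Agent.LT.T7.BQ87 Fermat.Agent.LT.T7.L2Q
open Fermat.Agent.LT.T7.H962 Fermat.Agent.LT.T7.H732 Fermat.Agent.LT.T7.PQ484

attribute [local instance] Fermat.Agent.LT.T5.instMeasurableSpaceG

section OneField

variable {K : Type} [Field K] [NumberField K]
variable {μ : Measure (G K)} {F : Set (G K)}

/-- **`R(f)` preserves the cusp functions** of level `𝔫` and of an arbitrary `K_∞`-type. -/
theorem rconv_cuspFnT919 (hF : T5.IsFrame μ F) {𝔫 : Ideal (𝓞 K)} {τ : G K → ℂ} {r : G K}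
    (hr : T5.IsRayGen r) {f ψ : G K → ℂ} (hf : T5.IsTestFn 𝔫 τ f)
    (hψ : T5.IsCuspFn 𝔫 τ r ψ) :
    T5.IsCuspFn 𝔫 τ r (T5.Rconv μ f ψ) where
  cont := (H44.isNice_rconv44 hF hf.cont hf.supp ⟨hψ.cont, hψ.bdd⟩).1
  bdd := (H44.isNice_rconv44 hF hf.cont hf.supp ⟨hψ.cont, hψ.bdd⟩).2
  aut :=
    { left_inv := fun γ g => by
        show ∫ y, f y * ψ (T5.ratG γ * g * y) ∂μ = ∫ y, f y * ψ (g * y) ∂μ
        refine integral_congr_ae (Filter.Eventually.of_forall fun y => ?_)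
        show f y * ψ (T5.ratG γ * g * y) = f y * ψ (g * y)
        rw [mul_assoc, hψ.aut.left_inv]
      level_inv := fun u hu g =>
        rconv_left_inv919 hF (fun y => hf.inv.level_left u hu y) g
      arch_compact := fun w k hk g => by
        have hτ : τ k ≠ 0 := by
          intro h0
          have := hf.ktype.norm_one w k hk
          rw [h0, norm_zero] at this
          exact zero_ne_one this
        have hk' : ∀ y : G K, f (k⁻¹ * y) = τ k * f y := by
          intro y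
          have h1 := hf.inv.arch_left w k hk (k⁻¹ * y)
          rw [mul_inv_cancel_left] at h1
          rw [h1, ← mul_assoc, mul_inv_cancel₀ hτ, one_mul]
        rw [rconv_mul919 hF]
        show ∫ y, f (k⁻¹ * y) * ψ (g * y) ∂μ = τ k * ∫ y, f y * ψ (g * y) ∂μ
        rw [← integral_const_mul]
        refine integral_congr_ae (Filter.Eventually.of_forall fun y => ?_)
        show f (k⁻¹ * y) * ψ (g * y) = τ k * (f y * ψ (g * y))
        rw [hk' y, mul_assoc]
      ray := fun g =>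
        rconv_central919 (fun g' => (T5.H277.ray_comm277 hr g').symm) hψ.aut.ray g }
  cuspidal := isCuspidalFn_rconv919 hF hf.cont hf.supp hψ.cont hψ.bdd hψ.cuspidal

end OneField

section Q

variable {μ : Measure (G ℚ)} {F : Set (G ℚ)}

theorem meanEigR0_smul919 {ψ : G ℚ → ℂ} {w : InfinitePlace ℚ} {m : ℝ → ℂ}
    (h : MeanEigR0 ψ w m) (κ : ℂ) : MeanEigR0 (fun g => κ * ψ g) w m := by
  intro t ht Y hY g
  show (∫ θ in (0 : ℝ)..(2 * Real.pi), κ * ψ (g * Y θ)) = m t * (κ * ψ g)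
  rw [intervalIntegral.integral_const_mul, h t ht Y hY g]
  ring

theorem meanEigR1_smul919 {ψ : G ℚ → ℂ} {w : InfinitePlace ℚ} {m : ℝ → ℂ}
    (h : MeanEigR1 ψ w m) (κ : ℂ) : MeanEigR1 (fun g => κ * ψ g) w m := by
  intro t ht Y hY g
  have e : (∫ θ in (0 : ℝ)..(2 * Real.pi),
        Complex.exp (-(Complex.I * ((θ : ℝ) : ℂ))) * (κ * ψ (g * Y θ)))
      = κ * ∫ θ in (0 : ℝ)..(2 * Real.pi),
        Complex.exp (-(Complex.I * ((θ : ℝ) : ℂ))) * ψ (g * Y θ) := by
    rw [← intervalIntegral.integral_const_mul]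
    refine intervalIntegral.integral_congr fun θ _ => ?_
    show Complex.exp (-(Complex.I * ((θ : ℝ) : ℂ))) * (κ * ψ (g * Y θ))
      = κ * (Complex.exp (-(Complex.I * ((θ : ℝ) : ℂ))) * ψ (g * Y θ))
    ring
  show (∫ θ in (0 : ℝ)..(2 * Real.pi),
        Complex.exp (-(Complex.I * ((θ : ℝ) : ℂ))) * (κ * ψ (g * Y θ))) = m t * (κ * ψ g)
  rw [e, h t ht Y hY g]
  ring

theorem qwtMeanEig_smul919 (t : QWt) {ψ : G ℚ → ℂ} {w : InfinitePlace ℚ} {m : ℝ → ℂ}
    (h : t.MeanEig ψ w m) (κ : ℂ) : t.MeanEig (fun g => κ * ψ g) w m := by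
  cases t
  · exact meanEigR0_smul919 h κ
  · exact meanEigR1_smul919 h κ

/-- **`R(f)` preserves the invariant cusp functions of type `t`.** -/
theorem rconv_wfnQ919 (hF : T5.IsFrame μ F) {t : QWt} {𝔫 : Ideal (𝓞 ℚ)} {r : G ℚ}
    (hr : T5.IsRayGen r) {P : Finset (HeightOneSpectrum (𝓞 ℚ))}
    {u : HeightOneSpectrum (𝓞 ℚ)} (hu : u.asIdeal ∣ 𝔫) (huP : u ∉ P) {f : G ℚ → ℂ}
    (hf : T5.IsTestFn 𝔫 t.type f) (hsupp : T3.M.IsSuppAtM ℚ 𝔫 P f) {ψ : G ℚ → ℂ}
    (hψ : IsWFnQ t 𝔫 r u ψ) : IsWFnQ t 𝔫 r u (T5.Rconv μ f ψ) where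
  cusp := rconv_cuspFnT919 hF hr hf hψ.cusp
  arch_scalar := fun w z hz g =>
    rconv_central919 (central_archPos919 hz) (hψ.arch_scalar w z hz) g
  iw := rconv_iwInv919 hu huP hf.supp hsupp hψ.iw

end Q

section Leaves

/-- **LEAF A.0.S = IW-SUPP** (same body as `B981.IwSuppC981`). -/
theorem iwSuppC87_919 (K : Type) [Field K] [NumberField K] : IwSuppC87 K :=
  H116.iwSuppC116 K

variable (F : Type) [Field F] [NumberField F]

/-- **LEAF A.0.C over `ℚ` = DN-STAB**, verbatim. -/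
theorem dnStabQC919 : DnStabQC87 F := by
  intro _ _ Φ B hB _ 𝔫 hlev P hP f hf hsupp hc
  have huP : (toBase962_732 B).u ∉ P := fun h => hP _ h hlev.u_level
  have hF : T5.IsFrame (toBase962_732 B).R.μ (toBase962_732 B).R.F := hB.frame.frame
  have hr : T5.IsRayGen (toBase962_732 B).R.r := hB.frame.ray
  have hw : ∀ (t : QWt) (ψ : G ℚ → ℂ),
      IsWFnQ t 𝔫 (toBase962_732 B).R.r (toBase962_732 B).u ψ →
      IsWFnQ t 𝔫 (toBase962_732 B).R.r (toBase962_732 B).u
        (T5.Rconv (toBase962_732 B).R.μ (f t) ψ) :=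
    fun t ψ hψ => rconv_wfnQ919 hF hr hlev.u_level huP (hf t) (hsupp t) hψ
  refine ⟨hw, fun t ψ c hψ => ?_, fun t ψ hψ H z hH hz => ⟨fun x => ?_, fun k x => ?_⟩⟩
  · obtain ⟨cs, hcs⟩ := hc t
    have hκ : T5.Rconv (toBase962_732 B).R.μ (f t) ψ = fun g => cs c * ψ g :=
      funext fun g => hcs ψ c hψ g
    refine ⟨hw t ψ hψ.inv, fun v hv => ?_, fun w => ?_⟩
    · rw [hκ]
      exact isHeckeEigenAt_smul919 (hψ.hecke v hv) _
    · rw [hκ]
      exact qwtMeanEig_smul919 t (hψ.mean w) _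
  · exact rconv_iwOp919 hF hlev.u_level huP (hf t).cont (hf t).supp (hsupp t) hψ.cusp.cont
      hψ.iw hH x
  · exact rconv_shiftOp919 (f t) ψ hz k x

end Leaves

end Fermat.Agent.LT.T7.DSQ919

end
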