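import Mathlib

/-!
# Row LT, tower T7, node T7.L2.1 `SupplyC`, part PROJ, leaf `UnitPeriodsC` -- CORE (helper919)

OFF-MAIN.  Mathlib only.  Dirichlet's unit theorem: for a non-zero ideal `𝔑` of `𝓞 K` and a real
`c ≠ 0` there is a linearly independent family `b : ι → (ι → ℝ)`, `ι = InfinitePlace K`, each
`b i` being the constant vector `c` or the vector `(log |ε|_w)_w` of a unit `ε ≡ 1 mod 𝔑`.

Proof.  `N = |(𝓞 K / 𝔑)ˣ|`; the units `ε_i ^ N` (`ε_i` a fundamental system) are `≡ 1 mod 𝔑`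
and their logarithmic vectors are linearly independent (their images in the `logSpace` are
`N •` a basis of the unit lattice, which is a basis over `ℝ`); they lie in the hyperplane
`∑ mult w * x_w = 0`, the constant vector `c` does not.
-/

set_option autoImplicit false

open NumberField NumberField.Units NumberField.InfinitePlace NumberField.Units.dirichletUnitTheorem

noncomputable section

namespace Fermat.Agent.LT.T7.H919

variable (K : Type) [Field K] [NumberField K]

/-- The logarithmic vector of a unit. -/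
def logVec919 (ε : (𝓞 K)ˣ) : InfinitePlace K → ℝ :=
  fun w => Real.log (w (((ε : 𝓞 K) : K)))

/-- The weighted sum `x ↦ ∑ mult w * x_w`. -/
def wSum919 : (InfinitePlace K → ℝ) →ₗ[ℝ] ℝ where
  toFun x := ∑ w : InfinitePlace K, (mult w : ℝ) * x w
  map_add' x y := by simp [mul_add, Finset.sum_add_distrib]
  map_smul' a x := by simp [Finset.mul_sum, mul_left_comm]

/-- The weighted restriction to the `logSpace`. -/
def wRes919 : (InfinitePlace K → ℝ) →ₗ[ℝ] logSpace K where
  toFun x := fun w => (mult w.val : ℝ) * x w.val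
  map_add' x y := by funext w; simp [mul_add]
  map_smul' a x := by funext w; simp [mul_left_comm]

theorem wSum_logVec919 (ε : (𝓞 K)ˣ) : wSum919 K (logVec919 K ε) = 0 :=
  sum_mult_mul_log ε

theorem wSum_const919 (c : ℝ) : wSum919 K (fun _ => c) = (Module.finrank ℚ K : ℝ) * c := by
  show ∑ w : InfinitePlace K, (mult w : ℝ) * c = _
  rw [← Finset.sum_mul, ← Nat.cast_sum, sum_mult_eq]

theorem wRes_logVec919 (ε : (𝓞 K)ˣ) :
    wRes919 K (logVec919 K ε) = logEmbedding K (Additive.ofMul ε) := rfl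

/-- The logarithmic embeddings of a fundamental system are linearly independent over `ℝ`. -/
theorem linIndep_fund919 :
    LinearIndependent ℝ (fun i : Fin (rank K) => logEmbedding K (Additive.ofMul (fundSystem K i))) := by
  classical
  have h := ((basisUnitLattice K).ofZLatticeBasis ℝ (unitLattice K)).linearIndependent
  have heq : (fun i : Fin (rank K) => logEmbedding K (Additive.ofMul (fundSystem K i)))
      = ⇑((basisUnitLattice K).ofZLatticeBasis ℝ (unitLattice K)) := by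
    funext i
    rw [Module.Basis.ofZLatticeBasis_apply, logEmbedding_fundSystem]
  rw [heq]
  exact h

/-- A power of every unit is `≡ 1 mod 𝔑`. -/
theorem exists_pow_cong919 (𝔑 : Ideal (𝓞 K)) (h𝔑 : 𝔑 ≠ ⊥) :
    ∃ N : ℕ, 0 < N ∧ ∀ ε : (𝓞 K)ˣ, (((ε ^ N : (𝓞 K)ˣ) : 𝓞 K) - 1 ∈ 𝔑) := by
  classical
  have hfin : Finite (𝓞 K ⧸ 𝔑) := Ideal.finiteQuotientOfFreeOfNeBot 𝔑 h𝔑
  have hfinU : Finite (𝓞 K ⧸ 𝔑)ˣ := inferInstance
  refine ⟨Nat.card (𝓞 K ⧸ 𝔑)ˣ, Nat.card_pos, fun ε => ?_⟩
  have h1 : (Units.map (Ideal.Quotient.mk 𝔑 : 𝓞 K →* 𝓞 K ⧸ 𝔑) ε) ^ Nat.card (𝓞 K ⧸ 𝔑)ˣ = 1 :=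
    pow_card_eq_one'
  have h2 : (Ideal.Quotient.mk 𝔑) (((ε ^ Nat.card (𝓞 K ⧸ 𝔑)ˣ : (𝓞 K)ˣ) : 𝓞 K)) = 1 := by
    have h3 : ((Units.map (Ideal.Quotient.mk 𝔑 : 𝓞 K →* 𝓞 K ⧸ 𝔑) ε ^ Nat.card (𝓞 K ⧸ 𝔑)ˣ :
        (𝓞 K ⧸ 𝔑)ˣ) : 𝓞 K ⧸ 𝔑) = 1 := by
      rw [h1]
      rfl
    rw [Units.val_pow_eq_pow_val, Units.coe_map] at h3
    rw [Units.val_pow_eq_pow_val, map_pow]
    exact h3
  rw [← Ideal.Quotient.eq_zero_iff_mem, map_sub, h2, map_one, sub_self]

/-- **UNIT-PERIODS, core form.** -/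
theorem unitPeriods919 (𝔑 : Ideal (𝓞 K)) (h𝔑 : 𝔑 ≠ ⊥) (c : ℝ) (hc : c ≠ 0) :
    ∃ b : InfinitePlace K → (InfinitePlace K → ℝ), LinearIndependent ℝ b ∧
      ∀ i : InfinitePlace K, (b i = fun _ => c) ∨
        ∃ ε : (𝓞 K)ˣ, ((ε : 𝓞 K) - 1 ∈ 𝔑) ∧
          b i = fun w : InfinitePlace K => Real.log (w (((ε : 𝓞 K) : K))) := by
  classical
  obtain ⟨N, hN, hcong⟩ := exists_pow_cong919 K 𝔑 h𝔑
  -- the family indexed by `Option (Fin (rank K))`
  set v : Fin (rank K) → (InfinitePlace K → ℝ) := fun i => logVec919 K (fundSystem K i ^ N)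
    with hv
  have hvres : ∀ i, wRes919 K (v i) = (N : ℝ) • logEmbedding K (Additive.ofMul (fundSystem K i)) := by
    intro i
    rw [hv, wRes_logVec919, ofMul_pow, map_nsmul, Nat.cast_smul_eq_nsmul]
  have hvli : LinearIndependent ℝ v := by
    refine LinearIndependent.of_comp (wRes919 K) ?_
    have h := (linIndep_fund919 K).units_smul
      (fun _ => Units.mk0 (N : ℝ) (Nat.cast_ne_zero.2 hN.ne'))
    convert h using 1
    funext i
    simp only [Function.comp_apply, hvres, Pi.smul_apply']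
    rfl
  have hnot : (fun _ : InfinitePlace K => c) ∉ Submodule.span ℝ (Set.range v) := by
    intro hmem
    have hle : Submodule.span ℝ (Set.range v) ≤ LinearMap.ker (wSum919 K) := by
      rw [Submodule.span_le]
      rintro _ ⟨i, rfl⟩
      exact wSum_logVec919 K _
    have h0 := hle hmem
    rw [LinearMap.mem_ker, wSum_const919] at h0
    have hfr : (Module.finrank ℚ K : ℝ) ≠ 0 :=
      Nat.cast_ne_zero.2 (Module.finrank_pos (R := ℚ) (M := K)).ne'
    exact (mul_ne_zero hfr hc) h0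
  have hli : LinearIndependent ℝ
      (fun o : Option (Fin (rank K)) => Option.casesOn' o (fun _ : InfinitePlace K => c) v) :=
    hvli.option hnot
  -- reindex by the infinite places
  have hcard : Fintype.card (InfinitePlace K) = Fintype.card (Option (Fin (rank K))) := by
    rw [Fintype.card_option, Fintype.card_fin, rank]
    have : 0 < Fintype.card (InfinitePlace K) := Fintype.card_pos
    omega
  let e : InfinitePlace K ≃ Option (Fin (rank K)) := Fintype.equivOfCardEq hcard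
  refine ⟨fun w => Option.casesOn' (e w) (fun _ : InfinitePlace K => c) v,
    hli.comp e e.injective, fun w => ?_⟩
  rcases h : e w with _ | i
  · left
    simp [h]
  · right
    refine ⟨fundSystem K i ^ N, hcong _, ?_⟩
    simp only [h, Option.casesOn'_some]
    rfl

end Fermat.Agent.LT.T7.H919

end
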