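import Fermat.Agent.LT.T7.H40.ArchProjSpec
import Fermat.Agent.LT.T7.H919.UnitPeriodsCore

/-!
# Row LT, tower T7, node T7.L2.1 `SupplyC`, part PROJ, leaf `UnitPeriodsC` (helper919)

OFF-MAIN.  `unitPeriodsC919 K : H40.UnitPeriodsC K`, VERBATIM against `T7/H40/ArchProjSpec.lean`
(helper40, sha256 34d7f842528466e1), unconditional, every number field.  The proof is
`unitPeriods919` of `UnitPeriodsCore.lean` (Mathlib only).
-/

set_option autoImplicit false

namespace Fermat.Agent.LT.T7.H919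

/-- **LEAF UNIT-PERIODS**, verbatim. -/
theorem unitPeriodsC919 (K : Type) [Field K] [NumberField K] :
    Fermat.Agent.LT.T7.H40.UnitPeriodsC K :=
  fun 𝔑 h𝔑 c hc => unitPeriods919 K 𝔑 h𝔑 c hc

end Fermat.Agent.LT.T7.H919
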